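/-
S12 project, row 633 (S12-STEP), part (LOC) (helper19): singular points of a Weierstrass cubic
over a field, and the chord through the singular point.

* `Sing W c d` : `(c, d)` is a singular point of the affine cubic.
* `sing_unique` : a Weierstrass cubic has at most one singular point.
* `sing_eq_of_X_eq` : a point of the cubic with the `x`-coordinate of the singular point IS the
  singular point.
* `addX_node`, `addY_node` : the third point of the chord through a point `(c, d)` of the cubic
  and the singular point `(c₀, d₀)` (`c ≠ c₀`) is the singular point again.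
* `nonsingular_scale` : scaling `(x, y) ↦ (u²x, u³y)` between `W` and its `u`-scaling.
-/
import Mathlib

set_option autoImplicit false

namespace Fermat.Agent.S12P.StepLoc19

open WeierstrassCurve WeierstrassCurve.Affine

section Field

variable {k : Type*} [Field k] (W : Affine k)

/-- `(c, d)` is a singular point of the affine Weierstrass cubic `W`. -/
def Sing (c d : k) : Prop := W.Equation c d ∧ ¬ W.Nonsingular c d

variable {W}

/-- The three equations of a singular point. -/
theorem Sing.eqs {c d : k} (h : Sing W c d) :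
    d ^ 2 + W.a₁ * c * d + W.a₃ * d = c ^ 3 + W.a₂ * c ^ 2 + W.a₄ * c + W.a₆ ∧
      W.a₁ * d = 3 * c ^ 2 + 2 * W.a₂ * c + W.a₄ ∧ 2 * d + W.a₁ * c + W.a₃ = 0 := by
  obtain ⟨he, hs⟩ := h
  rw [nonsingular_iff] at hs
  have h1 : W.a₁ * d = 3 * c ^ 2 + 2 * W.a₂ * c + W.a₄ := by
    by_contra h
    exact hs ⟨he, Or.inl h⟩
  have h2 : d = -d - W.a₁ * c - W.a₃ := by
    by_contra h
    exact hs ⟨he, Or.inr h⟩
  refine ⟨(equation_iff _ _).mp he, h1, ?_⟩
  linear_combination h2

/-- A point of the cubic with the `x`-coordinate of a singular point is that singular point. -/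
theorem Sing.eq_of_X_eq {c₀ d₀ d : k} (h : Sing W c₀ d₀) (he : W.Equation c₀ d) : d = d₀ := by
  obtain ⟨e0, -, y0⟩ := h.eqs
  have e := (equation_iff _ _).mp he
  have hsq : (d - d₀) ^ 2 = 0 := by linear_combination e - e0 - (d - d₀) * y0
  exact sub_eq_zero.mp (pow_eq_zero_iff (two_ne_zero)|>.mp hsq)

/-- **A Weierstrass cubic has at most one singular point.** -/
theorem sing_unique {c₁ d₁ c₂ d₂ : k} (h₁ : Sing W c₁ d₁) (h₂ : Sing W c₂ d₂) :
    c₁ = c₂ ∧ d₁ = d₂ := by
  obtain ⟨e1, x1, y1⟩ := h₁.eqs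
  obtain ⟨e2, x2, y2⟩ := h₂.eqs
  have hcube : (c₂ - c₁) ^ 3 = 0 := by
    linear_combination -(c₂ - c₁) * x1 - (d₂ - d₁) * y1 - 2 * e1 - (c₂ - c₁) * x2
      - (d₂ - d₁) * y2 + 2 * e2
  have hc : c₁ = c₂ := (sub_eq_zero.mp (pow_eq_zero_iff (three_ne_zero)|>.mp hcube)).symm
  subst hc
  exact ⟨rfl, (h₂.eq_of_X_eq h₁.1)⟩

variable [DecidableEq k]

/-- The chord through a point of the cubic and the singular point meets the cubic again at the
singular point: `x`-coordinate. -/
theorem addX_node {c d c₀ d₀ : k} (h : Sing W c₀ d₀) (he : W.Equation c d) (hc : c ≠ c₀) :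
    W.addX c c₀ (W.slope c c₀ d d₀) = c₀ := by
  obtain ⟨e0, x0, y0⟩ := h.eqs
  have e := (equation_iff _ _).mp he
  rw [slope_of_X_ne hc]
  have hne : c - c₀ ≠ 0 := sub_ne_zero.mpr hc
  simp only [Affine.addX]
  field_simp
  linear_combination e - e0 - (c - c₀) * x0 - (d - d₀) * y0

/-- ... and `y`-coordinate. -/
theorem addY_node {c d c₀ d₀ : k} (h : Sing W c₀ d₀) (he : W.Equation c d) (hc : c ≠ c₀) :
    W.addY c c₀ d (W.slope c c₀ d d₀) = d₀ := by
  obtain ⟨-, -, y0⟩ := h.eqs
  have hX := addX_node h he hc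
  simp only [Affine.addY, Affine.negAddY, hX, Affine.negY]
  rw [slope_of_X_ne hc]
  have hne : c - c₀ ≠ 0 := sub_ne_zero.mpr hc
  field_simp
  linear_combination -(c - c₀) * y0

end Field

end Fermat.Agent.S12P.StepLoc19
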