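/-
S12 project, row 633 (S12-STEP), part (LOC) (helper19): the local core.

General setting of `S58/Red/Core` (`Model A π WK Wk`: a Weierstrass curve over a valued field
with integral coefficients and its reduction, NO hypothesis on the reduced discriminant).

* `veluT`, `veluW`, `veluX`, `veluY` : Vélu's sums for the subgroup generated by a point `T`
  (`t = veluT / 2`, `w = veluW / 2`; the quotient curve is `⟨a₁, a₂, a₃, a₄ - 5t, a₆ - b₂t - 7w⟩`,
  the isogeny is `P ↦ (veluX P, veluY P)` off the kernel).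
* `veluT_eq_two_mul`, `veluW_eq_two_mul` : the sums over `0 < k < p` are twice the sums over
  `0 < k ≤ (p-1)/2` (so `t`, `w` need no division by `2`).
* `add_red_node` : an integral point with nonsingular reduction plus an integral point reducing to
  a singular point is integral and reduces to the same singular point.
* `rd_veluX`, `rd_veluY` : if every `k • T` (`0 < k < p`) reduces to a singular point, then for
  an integral point `P` with nonsingular reduction `(c, d)`, `veluX`, `veluY` reduce to `c`, `d`.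
* `rd_halfT_zero`, `rd_halfW_zero` : in that case the half sums reduce to `0`.
* `halfT_mem`, `halfW_mem` : the half sums are integral for torsion prime to the residue
  characteristic.
-/
import Mathlib
import Fermat.Agent.S58.Red.Core
import Fermat.Agent.S58.Red.Tors
import Fermat.Agent.S15P.M2.Defs89
import Fermat.Agent.S15P.M2.NodalRed69
import Fermat.Agent.S15P.M2.Velu89
import Fermat.Agent.S12P.StepLoc19.Sing

set_option autoImplicit false
set_option linter.unusedSectionVars false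

namespace Fermat.Agent.S12P.StepLoc19

open WeierstrassCurve WeierstrassCurve.Affine
open Fermat.Agent.S58.Red Fermat.Agent.S15P.M2 Fermat.Agent.S15P.M2.NodalRed69
  Fermat.Agent.S15P.M2.Velu89

/-! ### Vélu's sums -/

section Defs

variable {F : Type*} [Field F] [DecidableEq F] {W : Affine F}

/-- `∑_{0<k<n} (6x² + b₂x + b₄)(k • T)` `= 2t`. -/
def veluT (n : ℕ) (T : W.Point) : F := ∑ k ∈ Finset.Ico 1 n, tq (k • T)

/-- `∑_{0<k<n} (ψ₂² + x·(6x² + b₂x + b₄))(k • T)` `= 2w`. -/
def veluW (n : ℕ) (T : W.Point) : F :=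
  ∑ k ∈ Finset.Ico 1 n, (psi2 (k • T) ^ 2 + ptX (k • T) * tq (k • T))

/-- Vélu's `X`-coordinate of the image of `P`. -/
def veluX (n : ℕ) (T P : W.Point) : F :=
  ptX P + ∑ k ∈ Finset.Ico 1 n, (ptX (P + k • T) - ptX (k • T))

/-- Vélu's `Y`-coordinate of the image of `P`. -/
def veluY (n : ℕ) (T P : W.Point) : F :=
  ptY P + ∑ k ∈ Finset.Ico 1 n, (ptY (P + k • T) - ptY (k • T))

/-- The half sum for `t`. -/
def halfT (m : ℕ) (T : W.Point) : F := ∑ k ∈ Finset.Ico 1 (m + 1), tq (k • T)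

/-- The half sum for `w`. -/
def halfW (m : ℕ) (T : W.Point) : F :=
  ∑ k ∈ Finset.Ico 1 (m + 1), (psi2 (k • T) ^ 2 + ptX (k • T) * tq (k • T))

theorem ptX_neg (P : W.Point) : ptX (-P) = ptX P := by
  rcases P with _ | ⟨x, y, h⟩
  · rfl
  · rw [Point.neg_some]; rfl

theorem ptY_neg (P : W.Point) (hP : P ≠ 0) : ptY (-P) = W.negY (ptX P) (ptY P) := by
  rcases P with _ | ⟨x, y, h⟩
  · exact absurd rfl hP
  · rw [Point.neg_some]; rfl

theorem tq_neg (P : W.Point) : tq (-P) = tq P := by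
  unfold tq
  rw [ptX_neg]

theorem psi2_neg_sq (P : W.Point) : psi2 (-P) ^ 2 = psi2 P ^ 2 := by
  rcases P with _ | ⟨x, y, h⟩
  · rfl
  · rw [Point.neg_some]
    simp only [psi2, ptX_some, ptY_some, Affine.negY]
    ring

theorem sub_nsmul_eq_neg {p : ℕ} {T : W.Point} (hT : p • T = 0) {j : ℕ} (hj : j ≤ p) :
    (p - j) • T = -(j • T) := by
  rw [eq_neg_iff_add_eq_zero, ← add_nsmul, Nat.sub_add_cancel hj, hT]

/-- A sum over `0 < k < 2m+1` of a function symmetric under `k ↦ 2m+1-k` is twice the sum over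
`0 < k ≤ m`. -/
theorem sum_Ico_symm (m : ℕ) (f : ℕ → F) (hf : ∀ j, 1 ≤ j → j ≤ m → f (2 * m + 1 - j) = f j) :
    ∑ k ∈ Finset.Ico 1 (2 * m + 1), f k = 2 * ∑ k ∈ Finset.Ico 1 (m + 1), f k := by
  have h1 : ∑ k ∈ Finset.Ico 1 (2 * m + 1), f k =
      ∑ k ∈ Finset.Ico 1 (m + 1), f k + ∑ k ∈ Finset.Ico (m + 1) (2 * m + 1), f k :=
    (Finset.sum_Ico_consecutive f (by omega) (by omega)).symm
  have h2 : ∑ j ∈ Finset.Ico 1 (m + 1), f (2 * m + 1 - j) =
      ∑ j ∈ Finset.Ico (m + 1) (2 * m + 1), f j := by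
    have := Finset.sum_Ico_reflect f 1 (m := m + 1) (n := 2 * m + 1) (by omega)
    have e1 : 2 * m + 1 + 1 - (m + 1) = m + 1 := by omega
    have e2 : 2 * m + 1 + 1 - 1 = 2 * m + 1 := by omega
    rw [this, e1, e2]
  have h3 : ∑ j ∈ Finset.Ico 1 (m + 1), f (2 * m + 1 - j) = ∑ j ∈ Finset.Ico 1 (m + 1), f j := by
    refine Finset.sum_congr rfl fun j hj => ?_
    rw [Finset.mem_Ico] at hj
    exact hf j hj.1 (by omega)
  rw [h1, ← h2, h3, two_mul]

theorem veluT_eq_two_mul (m : ℕ) {T : W.Point} (hT : (2 * m + 1) • T = 0) :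
    veluT (2 * m + 1) T = 2 * halfT m T := by
  refine sum_Ico_symm m (fun k => tq (k • T)) fun j _ hj => ?_
  rw [sub_nsmul_eq_neg hT (by omega), tq_neg]

theorem veluW_eq_two_mul (m : ℕ) {T : W.Point} (hT : (2 * m + 1) • T = 0) :
    veluW (2 * m + 1) T = 2 * halfW m T := by
  refine sum_Ico_symm m (fun k => psi2 (k • T) ^ 2 + ptX (k • T) * tq (k • T)) fun j _ hj => ?_
  rw [sub_nsmul_eq_neg hT (by omega), tq_neg, ptX_neg, psi2_neg_sq]

end Defs

/-! ### The local core -/

section Gen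

variable {K : Type*} [Field K] [DecidableEq K] {A : ValuationSubring K}
  {k : Type*} [Field k] [DecidableEq k] {π : A →+* k} [IsLocalHom π]
  {WK : Affine K} {Wk : Affine k}

/-- An integral point with nonsingular reduction plus an integral point reducing to a singular
point: the sum is an integral affine point reducing to the same singular point. -/
theorem add_red_node (M : Model A π WK Wk) {x y xT yT : K} (h : WK.Nonsingular x y)
    (hT : WK.Nonsingular xT yT) {c d c₀ d₀ : k} (rx : Rd A π x c) (ry : Rd A π y d)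
    (g : Wk.Nonsingular c d) (rxT : Rd A π xT c₀) (ryT : Rd A π yT d₀) (hs : Sing Wk c₀ d₀) :
    ∃ (x₃ y₃ : K) (h₃ : WK.Nonsingular x₃ y₃),
      Point.some x y h + Point.some xT yT hT = Point.some x₃ y₃ h₃ ∧
        Rd A π x₃ c₀ ∧ Rd A π y₃ d₀ := by
  have hc : c ≠ c₀ := by
    intro hc
    subst hc
    have hd := hs.eq_of_X_eq g.1
    subst hd
    exact hs.2 g
  have hx : x ≠ xT := fun hx => hc ((rx.congr hx).unique rxT)
  have hxy : ¬(x = xT ∧ y = WK.negY xT yT) := fun h' => hx h'.1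
  have hcd : ¬(c = c₀ ∧ d = Wk.negY c₀ d₀) := fun h' => hc h'.1
  have rL := slope_rd M h.1 hT.1 rx ry rxT ryT hxy hcd
  refine ⟨_, _, _, Point.add_some hxy, ?_, ?_⟩
  · exact Rd.of_eq (M.addX rx rxT rL) (addX_node hs g.1 hc)
  · exact Rd.of_eq (M.addY rx rxT ry rL) (addY_node hs g.1 hc)

/-- The point `P` is an integral affine point whose reduction is a singular point of `Wk`. -/
def RedSing (A : ValuationSubring K) (π : A →+* k) (Wk : Affine k) (P : WK.Point) : Prop :=
  ∃ (x y : K) (h : WK.Nonsingular x y) (c d : k), P = Point.some x y h ∧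
    Rd A π x c ∧ Rd A π y d ∧ Sing Wk c d

/-- If every `j • T`, `0 < j < p`, reduces to a singular point, then Vélu's coordinates of the
image of an integral point with nonsingular reduction `(c, d)` reduce to `c`, `d`. -/
theorem rd_veluXY (M : Model A π WK Wk) (p : ℕ) {T : WK.Point}
    (hT : ∀ j ∈ Finset.Ico 1 p, RedSing A π Wk (j • T)) {x y : K} (h : WK.Nonsingular x y)
    {c d : k} (rx : Rd A π x c) (ry : Rd A π y d) (g : Wk.Nonsingular c d) :
    Rd A π (veluX p T (Point.some x y h)) c ∧ Rd A π (veluY p T (Point.some x y h)) d := by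
  have key : ∀ j ∈ Finset.Ico 1 p,
      Rd A π (ptX (Point.some x y h + j • T) - ptX (j • T)) 0 ∧
        Rd A π (ptY (Point.some x y h + j • T) - ptY (j • T)) 0 := by
    intro j hj
    obtain ⟨xT, yT, hT', c₀, d₀, hjT, rxT, ryT, hs⟩ := hT j hj
    obtain ⟨x₃, y₃, h₃, hadd, rx₃, ry₃⟩ := add_red_node M h hT' rx ry g rxT ryT hs
    rw [hjT, hadd]
    exact ⟨Rd.of_eq (rx₃.sub rxT) (sub_self _), Rd.of_eq (ry₃.sub ryT) (sub_self _)⟩
  constructor
  · have r := rx.add (rd_sum (Finset.Ico 1 p) _ (fun _ => (0 : k)) fun j hj => (key j hj).1)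
    exact Rd.of_eq r (by rw [Finset.sum_const_zero, add_zero])
  · have r := ry.add (rd_sum (Finset.Ico 1 p) _ (fun _ => (0 : k)) fun j hj => (key j hj).2)
    exact Rd.of_eq r (by rw [Finset.sum_const_zero, add_zero])

theorem RedSing.rd_tq (M : Model A π WK Wk) {P : WK.Point} (hP : RedSing A π Wk P) :
    Rd A π (tq P) 0 ∧ Rd A π (psi2 P) 0 ∧ ptX P ∈ A := by
  obtain ⟨x, y, h, c, d, rfl, rx, ry, hs⟩ := hP
  obtain ⟨e1, e2⟩ := sing_eqs hs.1 hs.2
  refine ⟨?_, ?_, rx.mem⟩
  · exact Rd.of_eq ((((rd_ofNat 6).mul (rx.pow 2)).add ((Model.b₂ M).mul rx)).add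
      (Model.b₄ M)) e2
  · exact Rd.of_eq ((((rd_ofNat 2).mul ry).add (M.a₁.mul rx)).add M.a₃) e1

/-- In the non-toric case the half sum for `t` reduces to `0`. -/
theorem rd_halfT_zero (M : Model A π WK Wk) (m : ℕ) {T : WK.Point}
    (hT : ∀ j ∈ Finset.Ico 1 (m + 1), RedSing A π Wk (j • T)) : Rd A π (halfT m T) 0 := by
  have r := rd_sum (A := A) (π := π) (Finset.Ico 1 (m + 1)) (fun j => tq (j • T))
    (fun _ => (0 : k)) fun j hj => ((hT j hj).rd_tq M).1
  exact Rd.of_eq r Finset.sum_const_zero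

/-- In the non-toric case the half sum for `w` reduces to `0`. -/
theorem rd_halfW_zero (M : Model A π WK Wk) (m : ℕ) {T : WK.Point}
    (hT : ∀ j ∈ Finset.Ico 1 (m + 1), RedSing A π Wk (j • T)) : Rd A π (halfW m T) 0 := by
  have r := rd_sum (A := A) (π := π) (Finset.Ico 1 (m + 1))
    (fun j => psi2 (j • T) ^ 2 + ptX (j • T) * tq (j • T)) (fun _ => (0 : k)) fun j hj => by
      obtain ⟨r1, r2, hx⟩ := (hT j hj).rd_tq M
      exact Rd.of_eq ((r2.pow 2).add ((rd_of_mem hx).mul r1)) (by ring)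
  exact Rd.of_eq r Finset.sum_const_zero

theorem ptX_mem_of_isInt {P : WK.Point} (h : IsInt A P) : ptX P ∈ A := by
  rcases P with _ | ⟨x, y, hxy⟩
  · exact A.zero_mem
  · exact h.1

theorem ptY_mem_of_isInt {P : WK.Point} (h : IsInt A P) : ptY P ∈ A := by
  rcases P with _ | ⟨x, y, hxy⟩
  · exact A.zero_mem
  · exact h.2

theorem tq_mem (M : Model A π WK Wk) {P : WK.Point} (hP : P ∈ torsSub k WK) : tq P ∈ A := by
  have hx := ptX_mem_of_isInt (isInt_of_mem_torsSub M hP)
  exact ((((rd_ofNat (A := A) (π := π) 6).mul ((rd_of_mem hx).pow 2)).add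
    ((Model.b₂ M).mul (rd_of_mem hx))).add (Model.b₄ M)).mem

theorem psi2_mem (M : Model A π WK Wk) {P : WK.Point} (hP : P ∈ torsSub k WK) : psi2 P ∈ A := by
  have hx := ptX_mem_of_isInt (isInt_of_mem_torsSub M hP)
  have hy := ptY_mem_of_isInt (isInt_of_mem_torsSub M hP)
  exact ((((rd_ofNat (A := A) (π := π) 2).mul (rd_of_mem hy)).add
    (M.a₁.mul (rd_of_mem hx))).add M.a₃).mem

/-- The half sum for `t` is integral for torsion prime to the residue characteristic. -/
theorem halfT_mem (M : Model A π WK Wk) (m : ℕ) {T : WK.Point} (hT : T ∈ torsSub k WK) :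
    halfT m T ∈ A :=
  sum_mem fun j _ => tq_mem M ((torsSub k WK).nsmul_mem hT j)

/-- The half sum for `w` is integral for torsion prime to the residue characteristic. -/
theorem halfW_mem (M : Model A π WK Wk) (m : ℕ) {T : WK.Point} (hT : T ∈ torsSub k WK) :
    halfW m T ∈ A :=
  sum_mem fun j _ => by
    have hjT := (torsSub k WK).nsmul_mem hT j
    exact add_mem (pow_mem (psi2_mem M hjT) 2)
      (mul_mem (ptX_mem_of_isInt (isInt_of_mem_torsSub M hjT)) (tq_mem M hjT))

/-- `veluPsi` is integral for torsion prime to the residue characteristic. -/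
theorem veluPsi_mem (M : Model A π WK Wk) (p : ℕ) {T : WK.Point} (hT : T ∈ torsSub k WK) :
    veluPsi p T ∈ A :=
  prod_mem fun j _ => psi2_mem M ((torsSub k WK).nsmul_mem hT j)

end Gen

end Fermat.Agent.S12P.StepLoc19
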