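/-
S12 project, row 633 (S12-STEP), part (INT) (helper19): scaling of Weierstrass curves and
rational numbers integral away from `p`.

* `scaleW W u = ⟨u a₁, u² a₂, u³ a₃, u⁴ a₄, u⁶ a₆⟩`, with `c₄`, `Δ`, base change, and
  `nonsingular_scaleW`.
* `exists_pow_mul_eq_int` : a rational number which is integral at every valuation subring of `ℚ̄`
  over every prime `ℓ ≠ p` becomes an integer after multiplication by a power of `p`.
* `dvd_of_val_lt_one`, `not_dvd_of_val_eq_one` : divisibility of integers by `ℓ` read off a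
  valuation subring over `ℓ`.
-/
import Mathlib
import Fermat.Prelude.Def_FLTPrelim_Ramification
import Fermat.Agent.EC.FrobFixed.Val
import Fermat.Agent.Lib.FrobeniusExists

set_option autoImplicit false

namespace Fermat.Agent.S12P.StepLoc19

open WeierstrassCurve WeierstrassCurve.Affine

/-! ### Scaling -/

section Scale

variable {R : Type*} [CommRing R]

/-- The scaling of a Weierstrass curve by `u`: `(x, y) ↦ (u² x, u³ y)`. -/
def scaleW (W : WeierstrassCurve R) (u : R) : WeierstrassCurve R :=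
  ⟨u * W.a₁, u ^ 2 * W.a₂, u ^ 3 * W.a₃, u ^ 4 * W.a₄, u ^ 6 * W.a₆⟩

theorem scaleW_c₄ (W : WeierstrassCurve R) (u : R) : (scaleW W u).c₄ = u ^ 4 * W.c₄ := by
  simp only [scaleW, WeierstrassCurve.c₄, WeierstrassCurve.b₂, WeierstrassCurve.b₄]
  ring

theorem scaleW_Δ (W : WeierstrassCurve R) (u : R) : (scaleW W u).Δ = u ^ 12 * W.Δ := by
  simp only [scaleW, WeierstrassCurve.Δ, WeierstrassCurve.b₂, WeierstrassCurve.b₄,
    WeierstrassCurve.b₆, WeierstrassCurve.b₈]
  ring

theorem scaleW_map {S : Type*} [CommRing S] (f : R →+* S) (W : WeierstrassCurve R) (u : R) :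
    (scaleW W u).map f = scaleW (W.map f) (f u) := by
  ext <;> simp [scaleW]

end Scale

section ScaleField

variable {F : Type*} [Field F]

theorem nonsingular_scaleW (W : WeierstrassCurve F) {u : F} (hu : u ≠ 0) {x y : F}
    (h : W.toAffine.Nonsingular x y) :
    (scaleW W u).toAffine.Nonsingular (u ^ 2 * x) (u ^ 3 * y) := by
  rw [Affine.nonsingular_iff'] at h ⊢
  obtain ⟨he, hs⟩ := h
  rw [Affine.equation_iff'] at he ⊢
  refine ⟨?_, ?_⟩
  · simp only [scaleW]
    linear_combination u ^ 6 * he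
  · rcases hs with hs | hs
    · left
      simp only [scaleW]
      intro h0
      apply hs
      have : u ^ 4 * (W.a₁ * y - (3 * x ^ 2 + 2 * W.a₂ * x + W.a₄)) = 0 := by
        linear_combination h0
      exact (mul_eq_zero.mp this).resolve_left (pow_ne_zero 4 hu)
    · right
      simp only [scaleW]
      intro h0
      apply hs
      have : u ^ 3 * (2 * y + W.a₁ * x + W.a₃) = 0 := by
        linear_combination h0
      exact (mul_eq_zero.mp this).resolve_left (pow_ne_zero 3 hu)

end ScaleField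

/-! ### Integers and rational numbers at a valuation subring of `ℚ̄` -/

section Val

open Fermat.Agent.EC.FrobFixed

variable (A : ValuationSubring (AlgebraicClosure ℚ)) {ℓ : ℕ}

theorem val_prime_lt_one (hA : A.LiesOverPrime ℓ) :
    A.valuation (ℓ : AlgebraicClosure ℚ) < 1 :=
  (A.mem_nonunits_iff).mp hA

theorem dvd_of_val_lt_one (hℓ : ℓ.Prime) (hA : A.LiesOverPrime ℓ) {n : ℤ}
    (h : A.valuation (n : AlgebraicClosure ℚ) < 1) : (ℓ : ℤ) ∣ n := by
  by_contra hn
  exact h.ne (val_intCast_eq_one A.valuation hℓ (val_prime_lt_one A hA) hn)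

theorem not_dvd_of_val_eq_one (hA : A.LiesOverPrime ℓ) {n : ℤ}
    (h : A.valuation (n : AlgebraicClosure ℚ) = 1) : ¬ (ℓ : ℤ) ∣ n := fun hn =>
  (val_intCast_lt_one A.valuation (val_prime_lt_one A hA) hn).ne h

theorem val_lt_one_of_dvd (hA : A.LiesOverPrime ℓ) {n : ℤ} (hn : (ℓ : ℤ) ∣ n) :
    A.valuation (n : AlgebraicClosure ℚ) < 1 :=
  val_intCast_lt_one A.valuation (val_prime_lt_one A hA) hn

theorem val_eq_one_of_not_dvd (hℓ : ℓ.Prime) (hA : A.LiesOverPrime ℓ) {n : ℤ}
    (hn : ¬ (ℓ : ℤ) ∣ n) : A.valuation (n : AlgebraicClosure ℚ) = 1 :=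
  val_intCast_eq_one A.valuation hℓ (val_prime_lt_one A hA) hn

/-- A rational number in `A` (over `ℓ`) has denominator prime to `ℓ`. -/
theorem not_dvd_den_of_mem (hℓ : ℓ.Prime) (hA : A.LiesOverPrime ℓ) {t : ℚ}
    (ht : (t : AlgebraicClosure ℚ) ∈ A) : ¬ ℓ ∣ t.den := by
  intro hden
  have hnum : ¬ (ℓ : ℤ) ∣ t.num := by
    intro hnum
    have h2 : ℓ ∣ t.num.natAbs := Int.natCast_dvd.mp hnum
    have h4 := Nat.dvd_gcd h2 hden
    rw [t.reduced] at h4
    exact hℓ.one_lt.ne' (Nat.dvd_one.mp h4)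
  have hvn := val_eq_one_of_not_dvd A hℓ hA hnum
  have hvd : A.valuation (((t.den : ℕ) : ℤ) : AlgebraicClosure ℚ) < 1 :=
    val_lt_one_of_dvd A hA (Int.natCast_dvd_natCast.mpr hden)
  have hden0 : (((t.den : ℕ) : ℤ) : AlgebraicClosure ℚ) ≠ 0 := by
    exact_mod_cast t.den_ne_zero
  have hvt : A.valuation (t : AlgebraicClosure ℚ) ≤ 1 := (A.valuation_le_one_iff _).mpr ht
  have hmul : (t : AlgebraicClosure ℚ) * (((t.den : ℕ) : ℤ) : AlgebraicClosure ℚ) =
      ((t.num : ℤ) : AlgebraicClosure ℚ) := by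
    have := congrArg (fun q : ℚ => (q : AlgebraicClosure ℚ)) (Rat.mul_den_eq_num t)
    push_cast at this ⊢
    exact this
  have hv := congrArg A.valuation hmul
  rw [map_mul, hvn] at hv
  have : A.valuation (((t.den : ℕ) : ℤ) : AlgebraicClosure ℚ) *
      A.valuation (t : AlgebraicClosure ℚ) < 1 :=
    mul_lt_one_of_lt_of_le hvd hvt
  rw [mul_comm] at this
  exact this.ne hv

end Val

/-- A rational number which is integral at every valuation subring of `ℚ̄` over every prime
`ℓ ≠ p` becomes an integer after multiplication by a power of `p`. -/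
theorem exists_pow_mul_eq_int {p : ℕ} (t : ℚ)
    (h : ∀ ℓ : ℕ, ℓ.Prime → ℓ ≠ p → ∀ A : ValuationSubring (AlgebraicClosure ℚ),
      A.LiesOverPrime ℓ → (t : AlgebraicClosure ℚ) ∈ A) :
    ∃ (e : ℕ) (z : ℤ), (p : ℚ) ^ e * t = z := by
  have hden : ∀ {d : ℕ}, d.Prime → d ∣ t.den → d = p := by
    intro d hd hdvd
    by_contra hne
    obtain ⟨A, hA⟩ := Fermat.Agent.Lib.FrobeniusExists.exists_liesOverPrime hd
    exact not_dvd_den_of_mem A hd hA (h d hd hne A hA) hdvd
  have hpow := Nat.eq_prime_pow_of_unique_prime_dvd t.den_ne_zero hden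
  refine ⟨t.den.primeFactorsList.length, t.num, ?_⟩
  have := Rat.mul_den_eq_num t
  rw [hpow] at this
  push_cast at this
  rw [mul_comm]
  exact this

end Fermat.Agent.S12P.StepLoc19
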