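/-
S12 project, row 633 (S12-STEP), parts (INT) + (LOC) + assembly (helper19; twin of helper53's
`Step53`): `StepLite` from the rational Vélu isogeny.

`VeluQ` is the output of (ALG) in helper53's literal (#5187): for a Weierstrass curve `W` over
`ℚ` and a point `T` of odd prime order `p` of `W(ℚ̄)` generating a Galois-stable subgroup, the
Vélu curve `V = ⟨a₁, a₂, a₃, a₄ - 5t, a₆ - b₂t - 7w⟩` is defined over `ℚ`, has `Δ ≠ 0`,
`Δ(V)·veluPsi⁴ = Δ^p`, and carries a Galois-equivariant homomorphism `W(ℚ̄) → V(ℚ̄)` with kernel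
`⟨T⟩`.

`stepLite_of_veluQ : VeluQ → StepLite` (the literal of `S12P/Interfaces20b.lean`):
* (INT) `t`, `w` are integral at every `ℓ ≠ p` (half sums, so no division by `2`), hence of the
  form `n / p^e`; the scaling of `V` by `d = p^e` is a curve over `ℤ`, isomorphic to `V` over `ℚ`
  (`S05.Transfer.ratEquiv`).
* (LOC) good: `veluPsi` is integral, so `Δ' = d¹²·Δ^p/veluPsi⁴` is a unit at `ℓ`;
  multiplicative, toric: `Velu89.velu_of_inZero`; multiplicative, non-toric: `t`, `w` reduce to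
  `0`, so the reduction of the new curve is the `d`-scaling of the reduction of `W`.
-/
import Mathlib
import Fermat.Agent.S05.FreyTransfer
import Fermat.Agent.S12P.StepLoc19.Core
import Fermat.Agent.S12P.StepLoc19.Rat

set_option autoImplicit false
set_option linter.unusedSectionVars false
set_option linter.style.haveILetI false

namespace Fermat.Agent.S12P.StepLoc19

open WeierstrassCurve WeierstrassCurve.Affine IsLocalRing
open scoped WeierstrassCurve.Affine
open Fermat.Agent.S58.Red Fermat.Agent.S15P.M2 Fermat.Agent.S15P.M2.NodalRed69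
  Fermat.Agent.S15P.M2.Velu89 Fermat.Agent.S05.Transfer

/-- The Vélu curve. -/
def veluCurve (W : WeierstrassCurve ℚ) (t w : ℚ) : WeierstrassCurve ℚ :=
  ⟨W.a₁, W.a₂, W.a₃, W.a₄ - 5 * t, W.a₆ - W.b₂ * t - 7 * w⟩

/-- **(ALG)**, the rational Vélu isogeny of prime degree (helper53's literal `VeluQ`). -/
def VeluQ : Prop :=
  ∀ (W : WeierstrassCurve ℚ), W.Δ ≠ 0 → ∀ p : ℕ, p.Prime → p ≠ 2 →
    ∀ T : (W⁄(AlgebraicClosure ℚ)).Point, addOrderOf T = p →
    (∀ σ : AlgebraicClosure ℚ ≃ₐ[ℚ] AlgebraicClosure ℚ, σ • T ∈ AddSubgroup.zmultiples T) →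
    ∃ (t w : ℚ) (φ : (W⁄(AlgebraicClosure ℚ)).Point →+
        ((veluCurve W t w)⁄(AlgebraicClosure ℚ)).Point),
      (t : AlgebraicClosure ℚ) = (∑ k ∈ Finset.Ico 1 p, tq (k • T)) / 2 ∧
      (w : AlgebraicClosure ℚ) =
        (∑ k ∈ Finset.Ico 1 p, (psi2 (k • T) ^ 2 + ptX (k • T) * tq (k • T))) / 2 ∧
      (veluCurve W t w).Δ ≠ 0 ∧
      (((veluCurve W t w).Δ : ℚ) : AlgebraicClosure ℚ) * veluPsi p T ^ 4 =
        ((W.Δ : ℚ) : AlgebraicClosure ℚ) ^ p ∧
      (∀ (σ : AlgebraicClosure ℚ ≃ₐ[ℚ] AlgebraicClosure ℚ) P, φ (σ • P) = σ • φ P) ∧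
      (∀ P, φ P = 0 ↔ P ∈ AddSubgroup.zmultiples T) ∧
      ∀ P, P ∉ AddSubgroup.zmultiples T →
        ptX (φ P) = ptX P + ∑ k ∈ Finset.Ico 1 p, (ptX (P + k • T) - ptX (k • T)) ∧
        ptY (φ P) = ptY P + ∑ k ∈ Finset.Ico 1 p, (ptY (P + k • T) - ptY (k • T))

theorem veluCurve_c₄ (W : WeierstrassCurve ℚ) (t w : ℚ) :
    (veluCurve W t w).c₄ = W.c₄ + 240 * t := by
  simp only [veluCurve, WeierstrassCurve.c₄, WeierstrassCurve.b₂, WeierstrassCurve.b₄]
  ring

/-- A subgroup of prime order is generated by any of its nonzero elements. -/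
theorem exists_generator {G : Type*} [AddCommGroup G] (M : AddSubgroup G) {p : ℕ} (hp : p.Prime)
    (hcard : Nat.card M = p) :
    ∃ T : G, T ∈ M ∧ addOrderOf T = p ∧ AddSubgroup.zmultiples T = M := by
  have hfin : Finite M := Nat.finite_of_card_ne_zero (by rw [hcard]; exact hp.ne_zero)
  have hnt : Nontrivial M := Finite.one_lt_card_iff_nontrivial.mp (by rw [hcard]; exact hp.one_lt)
  obtain ⟨x, hx⟩ := exists_ne (0 : M)
  have hord : addOrderOf x = p := by
    have hdvd : addOrderOf x ∣ p := hcard ▸ addOrderOf_dvd_natCard x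
    rcases (Nat.dvd_prime hp).mp hdvd with h1 | h1
    · exact absurd (AddMonoid.addOrderOf_eq_one_iff.mp h1) hx
    · exact h1
  have hord' : addOrderOf (x : G) = p := by rw [AddSubgroup.addOrderOf_coe]; exact hord
  refine ⟨x, x.2, hord', ?_⟩
  refine AddSubgroup.eq_of_le_of_card_ge (AddSubgroup.zmultiples_le_of_mem x.2) ?_
  rw [Nat.card_zmultiples, hord', hcard]

/-! ### Local statements on an integral model -/

section Local

variable (W : WeierstrassCurve ℤ) {p ℓ : ℕ} (A : ValuationSubring (AlgebraicClosure ℚ))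
  {T : ((W.map (Int.castRingHom ℚ))⁄(AlgebraicClosure ℚ)).Point}

/-- (INT) the half sums and `veluPsi` are `A`-integral, `A` over `ℓ ≠ p`. -/
theorem half_mem (hp : p.Prime) (hℓ : ℓ.Prime) (hℓp : ℓ ≠ p) (hA : A.LiesOverPrime ℓ) (m : ℕ)
    (hT : p • T = 0) : halfT m T ∈ A ∧ halfW m T ∈ A ∧ veluPsi p T ∈ A := by
  let _ : DecidableEq (ResidueField A) := Classical.decEq _
  obtain ⟨-, hT'⟩ := mem_torsSub_of_order (W := W) hp hℓ hℓp hA hT
  exact ⟨halfT_mem (model_res W A) m hT', halfW_mem (model_res W A) m hT',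
    veluPsi_mem (model_res W A) p hT'⟩

/-- (LOC, non-toric) the half sums reduce to `0`. -/
theorem half_rd_zero [DecidableEq (ResidueField A)] (hp : p.Prime) (hℓ : ℓ.Prime) (hℓp : ℓ ≠ p)
    (hA : A.LiesOverPrime ℓ) (m : ℕ) (hm : p = 2 * m + 1) (hTord : addOrderOf T = p)
    (hout : ¬ W.InZeroComponentAt A T) :
    Rd A (residue A) (halfT m T) 0 ∧ Rd A (residue A) (halfW m T) 0 := by
  have hsing : ∀ j ∈ Finset.Ico 1 (m + 1), RedSing A (residue A)
      (W.map (Int.castRingHom (ResidueField A))).toAffine (j • T) := by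
    intro j hj
    rw [Finset.mem_Ico] at hj
    have hpj : ¬ p ∣ j := fun hd => by
      have := Nat.le_of_dvd (by omega) hd
      omega
    obtain ⟨x, y, h, c, d, hjQ, rx, ry, he, hs⟩ :=
      sing_of_not_inZero hp hℓ hℓp hA hTord hout j hpj
    exact ⟨x, y, h, c, d, hjQ, rx, ry, he, hs⟩
  exact ⟨rd_halfT_zero (model_res W A) m hsing, rd_halfW_zero (model_res W A) m hsing⟩

end Local

/-! ### The assembly -/

/-- **`StepLite` from the rational Vélu isogeny** (statement = the body of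
`Fermat.Agent.S12P.StepLite`, `S12P/Interfaces20b.lean`). -/
theorem stepLite_of_veluQ (hV : VeluQ) :
    ∀ p : ℕ, p.Prime → 5 ≤ p → ∀ W : WeierstrassCurve ℤ, W.Δ ≠ 0 →
    ∀ M : AddSubgroup ((W.map (Int.castRingHom ℚ))⁄(AlgebraicClosure ℚ)).Point, Nat.card M = p →
    (∀ σ : AlgebraicClosure ℚ ≃ₐ[ℚ] AlgebraicClosure ℚ, ∀ m ∈ M, σ • m ∈ M) →
    ∃ (W' : WeierstrassCurve ℤ)
      (φ : ((W.map (Int.castRingHom ℚ))⁄(AlgebraicClosure ℚ)).Point →+
        ((W'.map (Int.castRingHom ℚ))⁄(AlgebraicClosure ℚ)).Point), W'.Δ ≠ 0 ∧ φ.ker = M ∧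
      (∀ (σ : AlgebraicClosure ℚ ≃ₐ[ℚ] AlgebraicClosure ℚ)
        (P : ((W.map (Int.castRingHom ℚ))⁄(AlgebraicClosure ℚ)).Point), φ (σ • P) = σ • φ P) ∧
      ∀ ℓ : ℕ, ℓ.Prime → ℓ ≠ p →
        (¬ (ℓ : ℤ) ∣ W.Δ → ¬ (ℓ : ℤ) ∣ W'.Δ) ∧
        ((ℓ : ℤ) ∣ W.Δ → ¬ (ℓ : ℤ) ∣ W.c₄ → (ℓ : ℤ) ∣ W'.Δ ∧ ¬ (ℓ : ℤ) ∣ W'.c₄) := by
  intro p hp h5 W hΔ M hcard hstab
  have hp2 : p ≠ 2 := by omega
  obtain ⟨T, hTM, hTord, hM⟩ := exists_generator M hp hcard
  have hpT : p • T = 0 := by rw [← hTord]; exact addOrderOf_nsmul_eq_zero T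
  have hΔq : (W.map (Int.castRingHom ℚ)).Δ ≠ 0 := by
    rw [map_Δ]
    exact fun h => hΔ (by simpa using h)
  obtain ⟨t, w, φ, ht, hw, hΔV, hψ, hσ, hker, -⟩ :=
    hV (W.map (Int.castRingHom ℚ)) hΔq p hp hp2 T hTord
      (fun σ => by rw [hM]; exact hstab σ T hTM)
  obtain ⟨m, hm⟩ : ∃ m, p = 2 * m + 1 := hp.odd_of_ne_two hp2
  -- `t`, `w` as half sums
  have ht' : (t : AlgebraicClosure ℚ) = halfT m T := by
    have h2 := veluT_eq_two_mul m (T := T) (hm ▸ hpT)
    rw [ht, hm]
    change veluT (2 * m + 1) T / 2 = halfT m T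
    rw [h2]
    field_simp
  have hw' : (w : AlgebraicClosure ℚ) = halfW m T := by
    have h2 := veluW_eq_two_mul m (T := T) (hm ▸ hpT)
    rw [hw, hm]
    change veluW (2 * m + 1) T / 2 = halfW m T
    rw [h2]
    field_simp
  -- (INT): `t`, `w` are integral away from `p`
  obtain ⟨e₁, z₁, hz₁⟩ := exists_pow_mul_eq_int (p := p) t fun ℓ hℓ hℓp A hA =>
    ht' ▸ (half_mem W A hp hℓ hℓp hA m hpT).1
  obtain ⟨e₂, z₂, hz₂⟩ := exists_pow_mul_eq_int (p := p) w fun ℓ hℓ hℓp A hA =>
    hw' ▸ (half_mem W A hp hℓ hℓp hA m hpT).2.1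
  obtain ⟨d, tZ, wZ, hd, hdt, hdw⟩ : ∃ (d : ℕ) (tZ wZ : ℤ), d = p ^ (e₁ + e₂) ∧
      (d : ℚ) * t = tZ ∧ (d : ℚ) * w = wZ := by
    refine ⟨p ^ (e₁ + e₂), (p : ℤ) ^ e₂ * z₁, (p : ℤ) ^ e₁ * z₂, rfl, ?_, ?_⟩
    · push_cast
      rw [← hz₁]
      ring
    · push_cast
      rw [← hz₂]
      ring
  have hd0 : (d : ℚ) ≠ 0 := by
    rw [hd]
    exact_mod_cast pow_ne_zero _ hp.ne_zero
  -- the integral model
  let W' : WeierstrassCurve ℤ :=
    ⟨d * W.a₁, d ^ 2 * W.a₂, d ^ 3 * W.a₃, d ^ 4 * W.a₄ - 5 * d ^ 3 * tZ,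
      d ^ 6 * W.a₆ - W.b₂ * d ^ 5 * tZ - 7 * d ^ 5 * wZ⟩
  have hW'map : W'.map (Int.castRingHom ℚ) =
      scaleW (veluCurve (W.map (Int.castRingHom ℚ)) t w) (d : ℚ) := by
    ext
    · simp [W', scaleW, veluCurve]
    · simp [W', scaleW, veluCurve]
    · simp [W', scaleW, veluCurve]
    · simp only [W', scaleW, veluCurve, map_a₄, map_sub, map_mul, map_pow, map_ofNat,
        eq_intCast, Int.cast_natCast]
      rw [← hdt]
      ring
    · simp only [W', scaleW, veluCurve, map_a₆, map_b₂, map_sub, map_mul, map_pow, map_ofNat,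
        eq_intCast, Int.cast_natCast]
      rw [← hdt, ← hdw]
      ring
  let C : VariableChange ℚ := ⟨Units.mk0 (d : ℚ) hd0, 0, 0, 0⟩
  have hC : C • (W'.map (Int.castRingHom ℚ)) = veluCurve (W.map (Int.castRingHom ℚ)) t w := by
    rw [hW'map]
    ext
    · simp only [variableChange_a₁, scaleW, C, Units.val_inv_eq_inv_val, Units.val_mk0]
      field_simp
      ring
    · simp only [variableChange_a₂, scaleW, C, Units.val_inv_eq_inv_val, Units.val_mk0]
      field_simp
      ring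
    · simp only [variableChange_a₃, scaleW, C, Units.val_inv_eq_inv_val, Units.val_mk0]
      field_simp
      ring
    · simp only [variableChange_a₄, scaleW, C, Units.val_inv_eq_inv_val, Units.val_mk0]
      field_simp
      ring
    · simp only [variableChange_a₆, scaleW, C, Units.val_inv_eq_inv_val, Units.val_mk0]
      field_simp
      ring
  let e : ((veluCurve (W.map (Int.castRingHom ℚ)) t w)⁄(AlgebraicClosure ℚ)).Point ≃+
      ((W'.map (Int.castRingHom ℚ))⁄(AlgebraicClosure ℚ)).Point := ratEquiv C hC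
  -- discriminant and `c₄` of the integral model
  have hΔ' : ((W'.Δ : ℤ) : ℚ) =
      (d : ℚ) ^ 12 * (veluCurve (W.map (Int.castRingHom ℚ)) t w).Δ := by
    have := congrArg WeierstrassCurve.Δ hW'map
    rw [map_Δ, scaleW_Δ] at this
    simpa using this
  have hc₄' : ((W'.c₄ : ℤ) : ℚ) = (d : ℚ) ^ 4 * (((W.c₄ : ℤ) : ℚ) + 240 * t) := by
    have := congrArg WeierstrassCurve.c₄ hW'map
    rw [map_c₄, scaleW_c₄, veluCurve_c₄, map_c₄] at this
    simpa using this
  have hΔ'Q : ((W'.Δ : ℤ) : AlgebraicClosure ℚ) = (d : AlgebraicClosure ℚ) ^ 12 *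
      (((veluCurve (W.map (Int.castRingHom ℚ)) t w).Δ : ℚ) : AlgebraicClosure ℚ) := by
    have := congrArg (fun q : ℚ => (q : AlgebraicClosure ℚ)) hΔ'
    push_cast at this
    exact this
  have hc₄'Q : ((W'.c₄ : ℤ) : AlgebraicClosure ℚ) = (d : AlgebraicClosure ℚ) ^ 4 *
      (((W.c₄ : ℤ) : AlgebraicClosure ℚ) + 240 * (t : AlgebraicClosure ℚ)) := by
    have := congrArg (fun q : ℚ => (q : AlgebraicClosure ℚ)) hc₄'
    push_cast at this
    exact this
  have hψ' : (((veluCurve (W.map (Int.castRingHom ℚ)) t w).Δ : ℚ) : AlgebraicClosure ℚ) *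
      veluPsi p T ^ 4 = ((W.Δ : ℤ) : AlgebraicClosure ℚ) ^ p := by
    rw [hψ, map_Δ]
    simp
  have hC4 : veluC4 p T = ((W.c₄ : ℤ) : AlgebraicClosure ℚ) + 240 * (t : AlgebraicClosure ℚ) := by
    rw [ht]
    unfold veluC4
    have : ((W.map (Int.castRingHom ℚ))⁄(AlgebraicClosure ℚ)).c₄ =
        ((W.c₄ : ℤ) : AlgebraicClosure ℚ) := by
      change ((W.map (Int.castRingHom ℚ)).map (algebraMap ℚ (AlgebraicClosure ℚ))).c₄ = _
      rw [map_c₄, map_c₄]
      simp
    rw [this]
    ring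
  refine ⟨W', e.toAddMonoidHom.comp φ, ?_, ?_, ?_, ?_⟩
  · intro h0
    rw [h0, Int.cast_zero] at hΔ'
    exact (mul_ne_zero (pow_ne_zero 12 hd0) hΔV) hΔ'.symm
  · ext x
    rw [AddMonoidHom.mem_ker, AddMonoidHom.comp_apply, ← hM, ← hker]
    exact e.map_eq_zero_iff
  · intro σ P
    rw [AddMonoidHom.comp_apply, AddMonoidHom.comp_apply, hσ]
    exact ratEquiv_smul C hC σ (φ P)
  · intro ℓ hℓ hℓp
    obtain ⟨A, hA⟩ := Fermat.Agent.Lib.FrobeniusExists.exists_liesOverPrime hℓ
    have hvd : A.valuation (d : AlgebraicClosure ℚ) = 1 := by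
      have hlp : ¬ (ℓ : ℤ) ∣ (p : ℤ) := fun h =>
        hℓp ((Nat.prime_dvd_prime_iff_eq hℓ hp).mp (Int.natCast_dvd_natCast.mp h))
      have h1 := val_eq_one_of_not_dvd A hℓ hA hlp
      rw [hd]
      push_cast at h1 ⊢
      rw [map_pow, h1, one_pow]
    constructor
    · -- good stays good
      intro hgood hdiv
      have h1 : A.valuation ((W'.Δ : ℤ) : AlgebraicClosure ℚ) < 1 := val_lt_one_of_dvd A hA hdiv
      rw [hΔ'Q, map_mul, map_pow, hvd, one_pow, one_mul] at h1
      have h2 := val_eq_one_of_not_dvd A hℓ hA hgood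
      have h3 : A.valuation (veluPsi p T) ≤ 1 :=
        (A.valuation_le_one_iff _).mpr (half_mem W A hp hℓ hℓp hA m hpT).2.2
      have h4 := congrArg A.valuation hψ'
      rw [map_mul, map_pow, map_pow, h2, one_pow] at h4
      exact (mul_lt_one_of_lt_of_le h1 (pow_le_one' h3 4)).ne h4
    · -- multiplicative stays multiplicative
      intro hℓΔ hℓc₄
      by_cases hin : W.InZeroComponentAt A T
      · -- toric
        obtain ⟨h1, h2⟩ := velu_of_inZero W T A hp hp2 hTord hℓ hℓp hℓΔ hℓc₄ hA hin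
        constructor
        · apply dvd_of_val_lt_one A hℓ hA
          rw [hΔ'Q, map_mul, map_pow, hvd, one_pow, one_mul]
          have h4 := congrArg A.valuation hψ'
          rw [map_mul, map_pow, map_pow, h2, one_pow, mul_one] at h4
          rw [h4]
          exact pow_lt_one' (val_lt_one_of_dvd A hA hℓΔ) hp.ne_zero
        · apply not_dvd_of_val_eq_one A hA
          rw [hc₄'Q, map_mul, map_pow, hvd, one_pow, one_mul, ← hC4, h1]
      · -- non-toric
        let _ : DecidableEq (ResidueField A) := Classical.decEq _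
        have hchar : CharP (ResidueField A) ℓ :=
          Fermat.Agent.ESJ.Cong.ConjAnalytic.charP_residueField_of_liesOver A hℓ hA
        obtain ⟨rt, rw'⟩ := half_rd_zero W A hp hℓ hℓp hA m hm hTord hin
        have htZ : ((tZ : ℤ) : ResidueField A) = 0 := by
          have r1 : Rd A (residue A) ((tZ : ℤ) : AlgebraicClosure ℚ)
              ((tZ : ℤ) : ResidueField A) := rd_intCast A (residue A) tZ
          have e1 : ((tZ : ℤ) : AlgebraicClosure ℚ) = (d : AlgebraicClosure ℚ) * halfT m T := by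
            have := congrArg (fun q : ℚ => (q : AlgebraicClosure ℚ)) hdt
            push_cast at this
            rw [← this, ht']
          have r2 := (rd_natCast (A := A) (π := residue A) d).mul rt
          rw [← e1] at r2
          rw [r1.unique r2, mul_zero]
        have hwZ : ((wZ : ℤ) : ResidueField A) = 0 := by
          have r1 : Rd A (residue A) ((wZ : ℤ) : AlgebraicClosure ℚ)
              ((wZ : ℤ) : ResidueField A) := rd_intCast A (residue A) wZ
          have e1 : ((wZ : ℤ) : AlgebraicClosure ℚ) = (d : AlgebraicClosure ℚ) * halfW m T := by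
            have := congrArg (fun q : ℚ => (q : AlgebraicClosure ℚ)) hdw
            push_cast at this
            rw [← this, hw']
          have r2 := (rd_natCast (A := A) (π := residue A) d).mul rw'
          rw [← e1] at r2
          rw [r1.unique r2, mul_zero]
        have hred : W'.map (Int.castRingHom (ResidueField A)) =
            scaleW (W.map (Int.castRingHom (ResidueField A))) (d : ResidueField A) := by
          ext
          · simp [W', scaleW]
          · simp [W', scaleW]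
          · simp [W', scaleW]
          · simp [W', scaleW, htZ]
          · simp [W', scaleW, htZ, hwZ]
        obtain ⟨hΔk, hc₄k⟩ := reduced_disc W A hℓ hℓΔ hℓc₄ hA
        have hdk : (d : ResidueField A) ≠ 0 := by
          rw [hd]
          push_cast
          refine pow_ne_zero _ fun h => ?_
          exact hℓp ((Nat.prime_dvd_prime_iff_eq hℓ hp).mp
            ((CharP.cast_eq_zero_iff (ResidueField A) ℓ p).mp h))
        constructor
        · rw [← CharP.intCast_eq_zero_iff (ResidueField A) ℓ]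
          have := congrArg WeierstrassCurve.Δ hred
          rw [map_Δ, scaleW_Δ] at this
          rw [eq_intCast] at this
          rw [this]
          change (d : ResidueField A) ^ 12 * (W.map (Int.castRingHom (ResidueField A))).Δ = 0
          have hΔk' : (W.map (Int.castRingHom (ResidueField A))).Δ = 0 := hΔk
          rw [hΔk', mul_zero]
        · intro hdiv
          have h0 : ((W'.c₄ : ℤ) : ResidueField A) = 0 :=
            (CharP.intCast_eq_zero_iff (ResidueField A) ℓ _).mpr hdiv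
          have := congrArg WeierstrassCurve.c₄ hred
          rw [map_c₄, scaleW_c₄, eq_intCast, h0] at this
          have hc₄k' : (W.map (Int.castRingHom (ResidueField A))).c₄ ≠ 0 := hc₄k
          exact (mul_ne_zero (pow_ne_zero 4 hdk) hc₄k') this.symm

end Fermat.Agent.S12P.StepLoc19
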