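/-
S12 project, row 633 (S12-STEP), the form for every ODD prime (helper19; ruling #5321 (R9)):

* `stepOdd_of_veluQ` / `stepOdd`: the statement of `StepLite` with `p ≠ 2` in place of `5 ≤ p`
  (same proof as `StepLoc19.stepLite_of_veluQ`, which only used `p ≠ 2`);
* `isoExists : Ifc48.IsoExists` — the brick (ISO) of helper48's compiled seam `Seam48.s12`,
  literally and without hypotheses, so that the seam can be cited unchanged.
-/
import Mathlib
import Fermat.Agent.S12P.Ifc48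
import Fermat.Agent.S12P.Velu82.Seam
import Fermat.Agent.S12P.StepLoc19.Step

set_option autoImplicit false
set_option linter.unusedSectionVars false
set_option linter.style.haveILetI false

namespace Fermat.Agent.S12P.StepLoc19

open WeierstrassCurve WeierstrassCurve.Affine IsLocalRing
open scoped WeierstrassCurve.Affine
open Fermat.Agent.S58.Red Fermat.Agent.S15P.M2 Fermat.Agent.S15P.M2.NodalRed69
  Fermat.Agent.S15P.M2.Velu89 Fermat.Agent.S05.Transfer

/-- **The step for every odd prime, from the rational Vélu isogeny** (the body of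
`Fermat.Agent.S12P.StepLite` with `p ≠ 2` in place of `5 ≤ p`). -/
theorem stepOdd_of_veluQ (hV : VeluQ) :
    ∀ p : ℕ, p.Prime → p ≠ 2 → ∀ W : WeierstrassCurve ℤ, W.Δ ≠ 0 →
    ∀ M : AddSubgroup ((W.map (Int.castRingHom ℚ))⁄(AlgebraicClosure ℚ)).Point, Nat.card M = p →
    (∀ σ : AlgebraicClosure ℚ ≃ₐ[ℚ] AlgebraicClosure ℚ, ∀ m ∈ M, σ • m ∈ M) →
    ∃ (W' : WeierstrassCurve ℤ)
      (φ : ((W.map (Int.castRingHom ℚ))⁄(AlgebraicClosure ℚ)).Point →+
        ((W'.map (Int.castRingHom ℚ))⁄(AlgebraicClosure ℚ)).Point), W'.Δ ≠ 0 ∧ φ.ker = M ∧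
      (∀ (σ : AlgebraicClosure ℚ ≃ₐ[ℚ] AlgebraicClosure ℚ)
        (P : ((W.map (Int.castRingHom ℚ))⁄(AlgebraicClosure ℚ)).Point), φ (σ • P) = σ • φ P) ∧
      ∀ ℓ : ℕ, ℓ.Prime → ℓ ≠ p →
        (¬ (ℓ : ℤ) ∣ W.Δ → ¬ (ℓ : ℤ) ∣ W'.Δ) ∧
        ((ℓ : ℤ) ∣ W.Δ → ¬ (ℓ : ℤ) ∣ W.c₄ → (ℓ : ℤ) ∣ W'.Δ ∧ ¬ (ℓ : ℤ) ∣ W'.c₄) := by
  intro p hp hp2 W hΔ M hcard hstab
  obtain ⟨T, hTM, hTord, hM⟩ := exists_generator M hp hcard
  have hpT : p • T = 0 := by rw [← hTord]; exact addOrderOf_nsmul_eq_zero T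
  have hΔq : (W.map (Int.castRingHom ℚ)).Δ ≠ 0 := by
    rw [map_Δ]
    exact fun h => hΔ (by simpa using h)
  obtain ⟨t, w, φ, ht, hw, hΔV, hψ, hσ, hker, -⟩ :=
    hV (W.map (Int.castRingHom ℚ)) hΔq p hp hp2 T hTord
      (fun σ => by rw [hM]; exact hstab σ T hTM)
  obtain ⟨m, hm⟩ : ∃ m, p = 2 * m + 1 := hp.odd_of_ne_two hp2
  -- `t`, `w` as half sums
  have ht' : (t : AlgebraicClosure ℚ) = halfT m T := by
    have h2 := veluT_eq_two_mul m (T := T) (hm ▸ hpT)
    rw [ht, hm]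
    change veluT (2 * m + 1) T / 2 = halfT m T
    rw [h2]
    field_simp
  have hw' : (w : AlgebraicClosure ℚ) = halfW m T := by
    have h2 := veluW_eq_two_mul m (T := T) (hm ▸ hpT)
    rw [hw, hm]
    change veluW (2 * m + 1) T / 2 = halfW m T
    rw [h2]
    field_simp
  -- (INT): `t`, `w` are integral away from `p`
  obtain ⟨e₁, z₁, hz₁⟩ := exists_pow_mul_eq_int (p := p) t fun ℓ hℓ hℓp A hA =>
    ht' ▸ (half_mem W A hp hℓ hℓp hA m hpT).1
  obtain ⟨e₂, z₂, hz₂⟩ := exists_pow_mul_eq_int (p := p) w fun ℓ hℓ hℓp A hA =>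
    hw' ▸ (half_mem W A hp hℓ hℓp hA m hpT).2.1
  obtain ⟨d, tZ, wZ, hd, hdt, hdw⟩ : ∃ (d : ℕ) (tZ wZ : ℤ), d = p ^ (e₁ + e₂) ∧
      (d : ℚ) * t = tZ ∧ (d : ℚ) * w = wZ := by
    refine ⟨p ^ (e₁ + e₂), (p : ℤ) ^ e₂ * z₁, (p : ℤ) ^ e₁ * z₂, rfl, ?_, ?_⟩
    · push_cast
      rw [← hz₁]
      ring
    · push_cast
      rw [← hz₂]
      ring
  have hd0 : (d : ℚ) ≠ 0 := by
    rw [hd]
    exact_mod_cast pow_ne_zero _ hp.ne_zero
  -- the integral model
  let W' : WeierstrassCurve ℤ :=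
    ⟨d * W.a₁, d ^ 2 * W.a₂, d ^ 3 * W.a₃, d ^ 4 * W.a₄ - 5 * d ^ 3 * tZ,
      d ^ 6 * W.a₆ - W.b₂ * d ^ 5 * tZ - 7 * d ^ 5 * wZ⟩
  have hW'map : W'.map (Int.castRingHom ℚ) =
      scaleW (veluCurve (W.map (Int.castRingHom ℚ)) t w) (d : ℚ) := by
    ext
    · simp [W', scaleW, veluCurve]
    · simp [W', scaleW, veluCurve]
    · simp [W', scaleW, veluCurve]
    · simp only [W', scaleW, veluCurve, map_a₄, map_sub, map_mul, map_pow, map_ofNat,
        eq_intCast, Int.cast_natCast]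
      rw [← hdt]
      ring
    · simp only [W', scaleW, veluCurve, map_a₆, map_b₂, map_sub, map_mul, map_pow, map_ofNat,
        eq_intCast, Int.cast_natCast]
      rw [← hdt, ← hdw]
      ring
  let C : VariableChange ℚ := ⟨Units.mk0 (d : ℚ) hd0, 0, 0, 0⟩
  have hC : C • (W'.map (Int.castRingHom ℚ)) = veluCurve (W.map (Int.castRingHom ℚ)) t w := by
    rw [hW'map]
    ext
    · simp only [variableChange_a₁, scaleW, C, Units.val_inv_eq_inv_val, Units.val_mk0]
      field_simp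
      ring
    · simp only [variableChange_a₂, scaleW, C, Units.val_inv_eq_inv_val, Units.val_mk0]
      field_simp
      ring
    · simp only [variableChange_a₃, scaleW, C, Units.val_inv_eq_inv_val, Units.val_mk0]
      field_simp
      ring
    · simp only [variableChange_a₄, scaleW, C, Units.val_inv_eq_inv_val, Units.val_mk0]
      field_simp
      ring
    · simp only [variableChange_a₆, scaleW, C, Units.val_inv_eq_inv_val, Units.val_mk0]
      field_simp
      ring
  let e : ((veluCurve (W.map (Int.castRingHom ℚ)) t w)⁄(AlgebraicClosure ℚ)).Point ≃+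
      ((W'.map (Int.castRingHom ℚ))⁄(AlgebraicClosure ℚ)).Point := ratEquiv C hC
  -- discriminant and `c₄` of the integral model
  have hΔ' : ((W'.Δ : ℤ) : ℚ) =
      (d : ℚ) ^ 12 * (veluCurve (W.map (Int.castRingHom ℚ)) t w).Δ := by
    have := congrArg WeierstrassCurve.Δ hW'map
    rw [map_Δ, scaleW_Δ] at this
    simpa using this
  have hc₄' : ((W'.c₄ : ℤ) : ℚ) = (d : ℚ) ^ 4 * (((W.c₄ : ℤ) : ℚ) + 240 * t) := by
    have := congrArg WeierstrassCurve.c₄ hW'map
    rw [map_c₄, scaleW_c₄, veluCurve_c₄, map_c₄] at this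
    simpa using this
  have hΔ'Q : ((W'.Δ : ℤ) : AlgebraicClosure ℚ) = (d : AlgebraicClosure ℚ) ^ 12 *
      (((veluCurve (W.map (Int.castRingHom ℚ)) t w).Δ : ℚ) : AlgebraicClosure ℚ) := by
    have := congrArg (fun q : ℚ => (q : AlgebraicClosure ℚ)) hΔ'
    push_cast at this
    exact this
  have hc₄'Q : ((W'.c₄ : ℤ) : AlgebraicClosure ℚ) = (d : AlgebraicClosure ℚ) ^ 4 *
      (((W.c₄ : ℤ) : AlgebraicClosure ℚ) + 240 * (t : AlgebraicClosure ℚ)) := by
    have := congrArg (fun q : ℚ => (q : AlgebraicClosure ℚ)) hc₄'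
    push_cast at this
    exact this
  have hψ' : (((veluCurve (W.map (Int.castRingHom ℚ)) t w).Δ : ℚ) : AlgebraicClosure ℚ) *
      veluPsi p T ^ 4 = ((W.Δ : ℤ) : AlgebraicClosure ℚ) ^ p := by
    rw [hψ, map_Δ]
    simp
  have hC4 : veluC4 p T = ((W.c₄ : ℤ) : AlgebraicClosure ℚ) + 240 * (t : AlgebraicClosure ℚ) := by
    rw [ht]
    unfold veluC4
    have : ((W.map (Int.castRingHom ℚ))⁄(AlgebraicClosure ℚ)).c₄ =
        ((W.c₄ : ℤ) : AlgebraicClosure ℚ) := by
      change ((W.map (Int.castRingHom ℚ)).map (algebraMap ℚ (AlgebraicClosure ℚ))).c₄ = _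
      rw [map_c₄, map_c₄]
      simp
    rw [this]
    ring
  refine ⟨W', e.toAddMonoidHom.comp φ, ?_, ?_, ?_, ?_⟩
  · intro h0
    rw [h0, Int.cast_zero] at hΔ'
    exact (mul_ne_zero (pow_ne_zero 12 hd0) hΔV) hΔ'.symm
  · ext x
    rw [AddMonoidHom.mem_ker, AddMonoidHom.comp_apply, ← hM, ← hker]
    exact e.map_eq_zero_iff
  · intro σ P
    rw [AddMonoidHom.comp_apply, AddMonoidHom.comp_apply, hσ]
    exact ratEquiv_smul C hC σ (φ P)
  · intro ℓ hℓ hℓp
    obtain ⟨A, hA⟩ := Fermat.Agent.Lib.FrobeniusExists.exists_liesOverPrime hℓ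
    have hvd : A.valuation (d : AlgebraicClosure ℚ) = 1 := by
      have hlp : ¬ (ℓ : ℤ) ∣ (p : ℤ) := fun h =>
        hℓp ((Nat.prime_dvd_prime_iff_eq hℓ hp).mp (Int.natCast_dvd_natCast.mp h))
      have h1 := val_eq_one_of_not_dvd A hℓ hA hlp
      rw [hd]
      push_cast at h1 ⊢
      rw [map_pow, h1, one_pow]
    constructor
    · -- good stays good
      intro hgood hdiv
      have h1 : A.valuation ((W'.Δ : ℤ) : AlgebraicClosure ℚ) < 1 := val_lt_one_of_dvd A hA hdiv
      rw [hΔ'Q, map_mul, map_pow, hvd, one_pow, one_mul] at h1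
      have h2 := val_eq_one_of_not_dvd A hℓ hA hgood
      have h3 : A.valuation (veluPsi p T) ≤ 1 :=
        (A.valuation_le_one_iff _).mpr (half_mem W A hp hℓ hℓp hA m hpT).2.2
      have h4 := congrArg A.valuation hψ'
      rw [map_mul, map_pow, map_pow, h2, one_pow] at h4
      exact (mul_lt_one_of_lt_of_le h1 (pow_le_one' h3 4)).ne h4
    · -- multiplicative stays multiplicative
      intro hℓΔ hℓc₄
      by_cases hin : W.InZeroComponentAt A T
      · -- toric
        obtain ⟨h1, h2⟩ := velu_of_inZero W T A hp hp2 hTord hℓ hℓp hℓΔ hℓc₄ hA hin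
        constructor
        · apply dvd_of_val_lt_one A hℓ hA
          rw [hΔ'Q, map_mul, map_pow, hvd, one_pow, one_mul]
          have h4 := congrArg A.valuation hψ'
          rw [map_mul, map_pow, map_pow, h2, one_pow, mul_one] at h4
          rw [h4]
          exact pow_lt_one' (val_lt_one_of_dvd A hA hℓΔ) hp.ne_zero
        · apply not_dvd_of_val_eq_one A hA
          rw [hc₄'Q, map_mul, map_pow, hvd, one_pow, one_mul, ← hC4, h1]
      · -- non-toric
        let _ : DecidableEq (ResidueField A) := Classical.decEq _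
        have hchar : CharP (ResidueField A) ℓ :=
          Fermat.Agent.ESJ.Cong.ConjAnalytic.charP_residueField_of_liesOver A hℓ hA
        obtain ⟨rt, rw'⟩ := half_rd_zero W A hp hℓ hℓp hA m hm hTord hin
        have htZ : ((tZ : ℤ) : ResidueField A) = 0 := by
          have r1 : Rd A (residue A) ((tZ : ℤ) : AlgebraicClosure ℚ)
              ((tZ : ℤ) : ResidueField A) := rd_intCast A (residue A) tZ
          have e1 : ((tZ : ℤ) : AlgebraicClosure ℚ) = (d : AlgebraicClosure ℚ) * halfT m T := by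
            have := congrArg (fun q : ℚ => (q : AlgebraicClosure ℚ)) hdt
            push_cast at this
            rw [← this, ht']
          have r2 := (rd_natCast (A := A) (π := residue A) d).mul rt
          rw [← e1] at r2
          rw [r1.unique r2, mul_zero]
        have hwZ : ((wZ : ℤ) : ResidueField A) = 0 := by
          have r1 : Rd A (residue A) ((wZ : ℤ) : AlgebraicClosure ℚ)
              ((wZ : ℤ) : ResidueField A) := rd_intCast A (residue A) wZ
          have e1 : ((wZ : ℤ) : AlgebraicClosure ℚ) = (d : AlgebraicClosure ℚ) * halfW m T := by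
            have := congrArg (fun q : ℚ => (q : AlgebraicClosure ℚ)) hdw
            push_cast at this
            rw [← this, hw']
          have r2 := (rd_natCast (A := A) (π := residue A) d).mul rw'
          rw [← e1] at r2
          rw [r1.unique r2, mul_zero]
        have hred : W'.map (Int.castRingHom (ResidueField A)) =
            scaleW (W.map (Int.castRingHom (ResidueField A))) (d : ResidueField A) := by
          ext
          · simp [W', scaleW]
          · simp [W', scaleW]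
          · simp [W', scaleW]
          · simp [W', scaleW, htZ]
          · simp [W', scaleW, htZ, hwZ]
        obtain ⟨hΔk, hc₄k⟩ := reduced_disc W A hℓ hℓΔ hℓc₄ hA
        have hdk : (d : ResidueField A) ≠ 0 := by
          rw [hd]
          push_cast
          refine pow_ne_zero _ fun h => ?_
          exact hℓp ((Nat.prime_dvd_prime_iff_eq hℓ hp).mp
            ((CharP.cast_eq_zero_iff (ResidueField A) ℓ p).mp h))
        constructor
        · rw [← CharP.intCast_eq_zero_iff (ResidueField A) ℓ]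
          have := congrArg WeierstrassCurve.Δ hred
          rw [map_Δ, scaleW_Δ] at this
          rw [eq_intCast] at this
          rw [this]
          change (d : ResidueField A) ^ 12 * (W.map (Int.castRingHom (ResidueField A))).Δ = 0
          have hΔk' : (W.map (Int.castRingHom (ResidueField A))).Δ = 0 := hΔk
          rw [hΔk', mul_zero]
        · intro hdiv
          have h0 : ((W'.c₄ : ℤ) : ResidueField A) = 0 :=
            (CharP.intCast_eq_zero_iff (ResidueField A) ℓ _).mpr hdiv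
          have := congrArg WeierstrassCurve.c₄ hred
          rw [map_c₄, scaleW_c₄, eq_intCast, h0] at this
          have hc₄k' : (W.map (Int.castRingHom (ResidueField A))).c₄ ≠ 0 := hc₄k
          exact (mul_ne_zero (pow_ne_zero 4 hdk) hc₄k') this.symm

/-- (ALG) as a term (same as `StepLoc19.veluQ`, restated here to keep this file independent of
`StepLoc19/StepLite.lean`). -/
theorem veluQ_odd : VeluQ := fun W hΔ p hp hp2 T hT hG => by
  obtain ⟨t, w, φ, ht, hw, hΔ', -, hD, he, hk, hc⟩ :=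
    Fermat.Agent.S12P.Velu82.exists_velu_explicit W hΔ p hp hp2 T hT hG
  exact ⟨t, w, φ, ht, hw, hΔ', hD, he, hk, hc⟩

/-- **The step for every odd prime `p`** (no hypothesis). -/
theorem stepOdd :
    ∀ p : ℕ, p.Prime → p ≠ 2 → ∀ W : WeierstrassCurve ℤ, W.Δ ≠ 0 →
    ∀ M : AddSubgroup ((W.map (Int.castRingHom ℚ))⁄(AlgebraicClosure ℚ)).Point, Nat.card M = p →
    (∀ σ : AlgebraicClosure ℚ ≃ₐ[ℚ] AlgebraicClosure ℚ, ∀ m ∈ M, σ • m ∈ M) →
    ∃ (W' : WeierstrassCurve ℤ)
      (φ : ((W.map (Int.castRingHom ℚ))⁄(AlgebraicClosure ℚ)).Point →+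
        ((W'.map (Int.castRingHom ℚ))⁄(AlgebraicClosure ℚ)).Point), W'.Δ ≠ 0 ∧ φ.ker = M ∧
      (∀ (σ : AlgebraicClosure ℚ ≃ₐ[ℚ] AlgebraicClosure ℚ)
        (P : ((W.map (Int.castRingHom ℚ))⁄(AlgebraicClosure ℚ)).Point), φ (σ • P) = σ • φ P) ∧
      ∀ ℓ : ℕ, ℓ.Prime → ℓ ≠ p →
        (¬ (ℓ : ℤ) ∣ W.Δ → ¬ (ℓ : ℤ) ∣ W'.Δ) ∧
        ((ℓ : ℤ) ∣ W.Δ → ¬ (ℓ : ℤ) ∣ W.c₄ → (ℓ : ℤ) ∣ W'.Δ ∧ ¬ (ℓ : ℤ) ∣ W'.c₄) :=
  stepOdd_of_veluQ veluQ_odd

/-- **(ISO) of `S12P/Ifc48.lean`, literally, without hypotheses.** -/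
theorem isoExists : Fermat.Agent.S12P.Ifc48.IsoExists := by
  intro p hp hp2 W hΔ hss K hcard hstab
  obtain ⟨W', φ, hΔ', hker, hσ, hloc⟩ := stepOdd p hp hp2 W hΔ K hcard hstab
  exact ⟨W', φ, hΔ', hker, hσ, fun ℓ hℓ hℓp => (hloc ℓ hℓ hℓp).1,
    fun ℓ hℓ hℓp hd => ((hloc ℓ hℓ hℓp).2 hd (hss ℓ hℓ hℓp hd)).2⟩

end Fermat.Agent.S12P.StepLoc19
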