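/-
S12 project, row 633 (S12-STEP): `stepLite : StepLite` (the literal of `S12P/Interfaces20b.lean`).

`StepLite` = (ALG) + (INT) + (LOC):
* (ALG) helper82's landed `Velu82.exists_velu_explicit` (the Vélu `p`-isogeny on `ℚ̄`-points of a
  curve over `ℚ`, kernel a Galois-stable subgroup of odd prime order) gives `VeluQ`;
* (INT) + (LOC) + assembly: `StepLoc19.stepLite_of_veluQ`.
-/
import Mathlib
import Fermat.Agent.S12P.Interfaces20b
import Fermat.Agent.S12P.Velu82.Seam
import Fermat.Agent.S12P.StepLoc19.Step

set_option autoImplicit false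

namespace Fermat.Agent.S12P.StepLoc19

/-- (ALG) as a term: the rational Vélu isogeny of odd prime degree. -/
theorem veluQ : VeluQ := fun W hΔ p hp hp2 T hT hG => by
  obtain ⟨t, w, φ, ht, hw, hΔ', -, hD, he, hk, hc⟩ :=
    Fermat.Agent.S12P.Velu82.exists_velu_explicit W hΔ p hp hp2 T hT hG
  exact ⟨t, w, φ, ht, hw, hΔ', hD, he, hk, hc⟩

/-- **Row 633 (S12-STEP).** One Vélu `p`-isogeny over `ℤ`: good primes stay good and
multiplicative primes stay multiplicative. -/
theorem stepLite : Fermat.Agent.S12P.StepLite := stepLite_of_veluQ veluQ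

end Fermat.Agent.S12P.StepLoc19
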